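import Mathlib
import Fermat.Prelude.Def_AlgebraicCurve_CanonicalDivisor

-- Copied by helper564 from helper3027 (origin/helper3027:Fermat/Agent/S24/KaehlerRankOne.lean); only the namespace and the import lines were changed
-- (namespace Fermat.Agent.S24.A564.*), so that the PART A assembly is self-contained.

/-!
# S24, PART A piece: Kähler differentials of a function field of one variable

Setting: fields `K ⊆ F`, `CharZero K`, `x ∈ F` transcendental over `K`, `F` algebraic over
`K⟮x⟯` (e.g. `[FiniteDimensional K⟮x⟯ F]`, which gives the instance automatically).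
No algebraic closedness is needed.  Everything lives in the namespace
`Fermat.Agent.S24.KaehlerRankOne` (complete proofs, standard axioms only).

* `span_D_eq_top t`            : `Submodule.span F {D K F t} = ⊤` if `F` is algebraic over `K⟮t⟯`
* `D_ne_zero t ht`             : `D K F t ≠ 0` for `t` transcendental, `F` algebraic over `K⟮t⟯`
* `isAlgebraic_adjoin_of_transcendental x t hx ht` : exchange, `F` is algebraic over `K⟮t⟯`
* `ord_eq_zero_of_isAlgebraic`, `transcendental_of_ord_ne_zero` : an element with nonzero order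
  at some place is transcendental over `K`
* `exists_dCoord_eq_D v`       : `∃ π, v.ord π = 1 ∧ v.dCoord = D K F π`
* `dCoordGenerates v x hx`     : `v.DCoordGenerates` for EVERY place `v`
* `dCoord_ne_zero' v x hx`     : `v.dCoord ≠ 0`
* `nontrivial_kaehler x hx`    : `Nontrivial Ω[F⁄K]`
* `exists_differential_ne_zero' x hx` : `∃ ω : Ω[F⁄K], ω ≠ 0`
* `exists_eq_smul_D x ω`       : `∃ f, ω = f • D K F x`
* `finrank_kaehler x hx`       : `Module.finrank F Ω[F⁄K] = 1`
-/

set_option autoImplicit false
open AlgebraicCurve KaehlerDifferential IntermediateField Polynomial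

namespace Fermat.Agent.S24.A564.KR

variable {K F : Type*} [Field K] [Field F] [Algebra K F]

section simpleExt

/-- `Ω[K⟮t⟯⁄K]` is spanned by `D t`. -/
theorem span_D_gen_eq_top (t : F) :
    Submodule.span K⟮t⟯ {D K K⟮t⟯ (AdjoinSimple.gen K t)} = ⊤ := by
  rw [eq_top_iff, ← KaehlerDifferential.span_range_derivation K K⟮t⟯, Submodule.span_le]
  rintro _ ⟨y, rfl⟩
  obtain ⟨r, s, hy⟩ := IntermediateField.mem_adjoin_simple_iff K y.1 |>.mp y.2
  have hy' : y = aeval (AdjoinSimple.gen K t) r / aeval (AdjoinSimple.gen K t) s := by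
    apply Subtype.ext
    rw [hy]
    simp
  rw [hy', Derivation.leibniz_div, Derivation.map_aeval, Derivation.map_aeval]
  refine Submodule.smul_mem _ _ (Submodule.sub_mem _ ?_ ?_) <;>
  · rw [smul_smul]
    exact Submodule.smul_mem _ _ (Submodule.subset_span rfl)

/-- The `K[X]`-algebra structure on `K⟮t⟯` sending `X` to `t`. -/
@[instance_reducible]
noncomputable def polyAlgebraAdjoin (t : F) : Algebra K[X] K⟮t⟯ :=
  (aeval (AdjoinSimple.gen K t)).toRingHom.toAlgebra

theorem D_gen_ne_zero (t : F) (ht : Transcendental K t) :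
    D K K⟮t⟯ (AdjoinSimple.gen K t) ≠ 0 := by
  let _ : Algebra K[X] K⟮t⟯ := polyAlgebraAdjoin t
  have : IsScalarTower K K[X] K⟮t⟯ := IsScalarTower.of_algebraMap_eq fun a => by
    show _ = aeval (AdjoinSimple.gen K t) (algebraMap K K[X] a)
    simp
  let e : RatFunc K ≃ₐ[K[X]] K⟮t⟯ :=
    { (RatFunc.algEquivOfTranscendental t ht).toRingEquiv with
      commutes' := fun g => RatFunc.algEquivOfTranscendental_algebraMap t ht g }
  have : IsLocalization (nonZeroDivisors K[X]) K⟮t⟯ :=
    IsLocalization.isLocalization_of_algEquiv (nonZeroDivisors K[X]) e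
  intro h
  have h1 : KaehlerDifferential.map K K K[X] K⟮t⟯ (D K K[X] X) = 0 := by
    rw [KaehlerDifferential.map_D]
    show D K K⟮t⟯ (aeval (AdjoinSimple.gen K t) X) = 0
    rw [aeval_X]; exact h
  obtain ⟨c, hc⟩ := (IsLocalizedModule.eq_zero_iff (nonZeroDivisors K[X])
    (KaehlerDifferential.map K K K[X] K⟮t⟯)).mp h1
  have h2 := congrArg (KaehlerDifferential.polynomialEquiv K) hc
  rw [map_zero, Submonoid.smul_def, map_smul, KaehlerDifferential.polynomialEquiv_D,
    derivative_X, smul_eq_mul, mul_one] at h2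
  exact nonZeroDivisors.coe_ne_zero c h2

end simpleExt

section tower

open TensorProduct

variable [CharZero K]

theorem formallyEtale_of_isAlgebraic_adjoin (t : F) [Algebra.IsAlgebraic K⟮t⟯ F] :
    Algebra.FormallyEtale K⟮t⟯ F := by
  have : CharZero K⟮t⟯ := charZero_of_injective_algebraMap (algebraMap K K⟮t⟯).injective
  have : Algebra.IsSeparable K⟮t⟯ F := inferInstance
  exact Algebra.FormallyEtale.of_isSeparable _ _

/-- `Ω[F⁄K]` is spanned by `D t` when `F` is algebraic over `K⟮t⟯` (characteristic zero). -/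
theorem span_D_eq_top (t : F) [Algebra.IsAlgebraic K⟮t⟯ F] :
    Submodule.span F {D K F t} = ⊤ := by
  have := formallyEtale_of_isAlgebraic_adjoin (K := K) t
  rw [eq_top_iff]
  rintro ω -
  obtain ⟨z, rfl⟩ := (KaehlerDifferential.tensorKaehlerEquivOfFormallyEtale K K⟮t⟯ F).surjective ω
  induction z using TensorProduct.induction_on with
  | zero => simp
  | tmul a m =>
    have hm : m ∈ Submodule.span K⟮t⟯ {D K K⟮t⟯ (AdjoinSimple.gen K t)} := by
      rw [span_D_gen_eq_top]; trivial
    obtain ⟨c, rfl⟩ := Submodule.mem_span_singleton.mp hm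
    rw [KaehlerDifferential.tensorKaehlerEquivOfFormallyEtale_apply,
      KaehlerDifferential.mapBaseChange_tmul, map_smul, KaehlerDifferential.map_D]
    exact Submodule.smul_mem _ _ (Submodule.smul_mem _ _ (Submodule.subset_span rfl))
  | add x y hx hy => rw [map_add]; exact Submodule.add_mem _ hx hy

/-- `D t ≠ 0` in `Ω[F⁄K]` for `t` transcendental with `F` algebraic over `K⟮t⟯`. -/
theorem D_ne_zero (t : F) (ht : Transcendental K t) [Algebra.IsAlgebraic K⟮t⟯ F] :
    D K F t ≠ 0 := by
  have := formallyEtale_of_isAlgebraic_adjoin (K := K) t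
  intro h
  have h1 : (KaehlerDifferential.tensorKaehlerEquivOfFormallyEtale K K⟮t⟯ F)
      ((1 : F) ⊗ₜ[K⟮t⟯] D K K⟮t⟯ (AdjoinSimple.gen K t)) = 0 := by
    rw [KaehlerDifferential.tensorKaehlerEquivOfFormallyEtale_apply,
      KaehlerDifferential.mapBaseChange_tmul, KaehlerDifferential.map_D, one_smul]
    exact h
  have h2 : (1 : F) ⊗ₜ[K⟮t⟯] D K K⟮t⟯ (AdjoinSimple.gen K t) = 0 :=
    (KaehlerDifferential.tensorKaehlerEquivOfFormallyEtale K K⟮t⟯ F).injective
      (by rw [h1, map_zero])
  have h4 : D K K⟮t⟯ (AdjoinSimple.gen K t) = 0 := by simpa using h2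
  exact D_gen_ne_zero t ht h4

end tower

section exchange

/-- Exchange: if `F` is algebraic over `K⟮x⟯` and `t ∈ F` is transcendental over `K`,
then `F` is algebraic over `K⟮t⟯`. -/
theorem isAlgebraic_adjoin_of_transcendental (x t : F) (hx : Transcendental K x)
    (ht : Transcendental K t) [Algebra.IsAlgebraic K⟮x⟯ F] : Algebra.IsAlgebraic K⟮t⟯ F := by
  have h1 : IsAlgebraic K⟮x⟯ t := Algebra.IsAlgebraic.isAlgebraic t
  have h2 : IsAlgebraic (Algebra.adjoin K {x}) t := IntermediateField.isAlgebraic_adjoin_iff.mp h1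
  have h3 : IsAlgebraic (Algebra.adjoin K {t}) x := by
    simpa using IsAlgebraic.adjoin_singleton hx ht h2
  refine ⟨fun y => ?_⟩
  have hy1 : IsAlgebraic K⟮x⟯ y := Algebra.IsAlgebraic.isAlgebraic y
  have hy2 : IsAlgebraic (Algebra.adjoin K {x}) y :=
    IntermediateField.isAlgebraic_adjoin_iff.mp hy1
  have hy3 : IsAlgebraic (Algebra.adjoin K {t}) y := by
    refine IsAlgebraic.adjoin_of_forall_isAlgebraic (s := {x}) (t := {t}) ?_ hy2
    rintro z ⟨hz, -⟩
    rw [Set.mem_singleton_iff] at hz
    rw [hz]; exact h3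
  exact IntermediateField.isAlgebraic_adjoin_iff.mpr hy3

end exchange

section places

variable (v : Place K F)

theorem ord_nonneg_of_mem_valuationSubring {t : F} (ht : t ∈ v.toValuationSubring) :
    0 ≤ v.ord t := by
  rcases eq_or_ne t 0 with rfl | h0
  · simp
  have h1 : v.adicValuation t ≤ 1 := by
    have := v.adicValuation_coe ⟨t, ht⟩
    rw [this]
    exact IsDedekindDomain.HeightOneSpectrum.intValuation_le_one _ _
  have h2 := v.adicValuation_ne_zero h0
  unfold Place.ord
  rw [neg_nonneg, ← WithZero.exp_le_exp, WithZero.exp_log h2, WithZero.exp_zero]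
  exact h1

/-- An element algebraic over the constant field has order zero at every place. -/
theorem ord_eq_zero_of_isAlgebraic {t : F} (ht : IsAlgebraic K t) : v.ord t = 0 := by
  have key : ∀ s : F, IsAlgebraic K s → 0 ≤ v.ord s := by
    intro s hs
    have hs1 : IsIntegral K s := hs.isIntegral
    have hs2 : IsIntegral v.toValuationSubring s := hs1.tower_top
    obtain ⟨a, ha⟩ := (IsIntegrallyClosed.isIntegral_iff (R := v.toValuationSubring)).mp hs2
    have : s ∈ v.toValuationSubring := by rw [← ha]; exact a.2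
    exact ord_nonneg_of_mem_valuationSubring v this
  have h1 := key t ht
  have h2 := key t⁻¹ ht.inv
  rw [v.ord_inv] at h2
  omega

theorem transcendental_of_ord_ne_zero {t : F} (ht : v.ord t ≠ 0) : Transcendental K t :=
  fun h => ht (ord_eq_zero_of_isAlgebraic v h)

theorem exists_dCoord_eq_D : ∃ π : F, v.ord π = 1 ∧ v.dCoord = D K F π :=
  ⟨((IsDiscreteValuationRing.exists_irreducible v.toValuationSubring).choose : F),
   v.ord_coe_irreducible
    (IsDiscreteValuationRing.exists_irreducible v.toValuationSubring).choose_spec, rfl⟩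

variable [CharZero K]

/-- Every place of a function field of one variable (char. 0) has a generating `dCoord`. -/
theorem dCoordGenerates (x : F) (hx : Transcendental K x) [Algebra.IsAlgebraic K⟮x⟯ F] :
    v.DCoordGenerates := by
  obtain ⟨π, hπ, hd⟩ := exists_dCoord_eq_D v
  have hπt : Transcendental K π := transcendental_of_ord_ne_zero v (by rw [hπ]; exact one_ne_zero)
  have := isAlgebraic_adjoin_of_transcendental x π hx hπt
  exact ⟨by rw [hd]; exact span_D_eq_top π⟩

theorem dCoord_ne_zero' (x : F) (hx : Transcendental K x) [Algebra.IsAlgebraic K⟮x⟯ F] :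
    v.dCoord ≠ 0 := by
  obtain ⟨π, hπ, hd⟩ := exists_dCoord_eq_D v
  have hπt : Transcendental K π := transcendental_of_ord_ne_zero v (by rw [hπ]; exact one_ne_zero)
  have := isAlgebraic_adjoin_of_transcendental x π hx hπt
  rw [hd]; exact D_ne_zero π hπt

end places

section consequences

variable [CharZero K]

theorem nontrivial_kaehler (x : F) (hx : Transcendental K x) [Algebra.IsAlgebraic K⟮x⟯ F] :
    Nontrivial Ω[F⁄K] :=
  ⟨⟨D K F x, 0, D_ne_zero x hx⟩⟩

/-- PART A: `Ω[F⁄K] ≠ 0`. -/
theorem exists_differential_ne_zero' (x : F) (hx : Transcendental K x)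
    [Algebra.IsAlgebraic K⟮x⟯ F] : ∃ ω : Ω[F⁄K], ω ≠ 0 :=
  ⟨D K F x, D_ne_zero x hx⟩

/-- Every differential is a unique multiple of `D x`. -/
theorem exists_eq_smul_D (x : F) [Algebra.IsAlgebraic K⟮x⟯ F] (ω : Ω[F⁄K]) :
    ∃ f : F, ω = f • D K F x := by
  have hω : ω ∈ (⊤ : Submodule F Ω[F⁄K]) := Submodule.mem_top
  rw [← span_D_eq_top (K := K) x, Submodule.mem_span_singleton] at hω
  exact hω.imp fun _ hf => hf.symm

theorem finrank_kaehler (x : F) (hx : Transcendental K x) [Algebra.IsAlgebraic K⟮x⟯ F] :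
    Module.finrank F Ω[F⁄K] = 1 := by
  rw [finrank_eq_one_iff_of_nonzero' (D K F x) (D_ne_zero x hx)]
  intro ω
  obtain ⟨f, hf⟩ := exists_eq_smul_D (K := K) x ω
  exact ⟨f, hf.symm⟩

end consequences

end Fermat.Agent.S24.A564.KR
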