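import Fermat.Agent.S24.A564.LocalDiff

-- Copied by helper564 from helper1884 (origin/helper1884:Fermat/Agent/S24/PlacesDedekind.lean); only the namespace and the import lines were changed
-- (namespace Fermat.Agent.S24.A564.*), so that the PART A assembly is self-contained.

set_option autoImplicit false
set_option linter.unusedSectionVars false
set_option linter.style.haveILetI false
open AlgebraicCurve KaehlerDifferential IsDedekindDomain

namespace Fermat.Agent.S24.A564.LD

section center

variable {K F : Type*} [Field K] [Field F] [Algebra K F]
variable {B : Type*} [CommRing B] [IsDedekindDomain B] [Algebra B F] [IsFractionRing B F]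
variable (v : Place K F) (hB : ∀ b : B, algebraMap B F b ∈ v.toValuationSubring)

/-- The ring hom `B → O_v` for a place `v` whose valuation ring contains `B`. -/
def toValRing : B →+* v.toValuationSubring :=
  (algebraMap B F).codRestrict v.toValuationSubring hB

@[simp]
theorem coe_toValRing (b : B) : ((toValRing v hB b : v.toValuationSubring) : F) = algebraMap B F b :=
  rfl

theorem toValRing_injective : Function.Injective (toValRing v hB) := by
  intro a b h
  have := congrArg (Subtype.val) h
  exact IsFractionRing.injective B F this

/-- The center of the place `v` on `B`. -/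
def centerIdeal : Ideal B :=
  (IsLocalRing.maximalIdeal v.toValuationSubring).comap (toValRing v hB)

theorem mem_centerIdeal_iff (b : B) :
    b ∈ centerIdeal v hB ↔ ¬ IsUnit (toValRing v hB b) := by
  unfold centerIdeal
  rw [Ideal.mem_comap, IsLocalRing.mem_maximalIdeal, mem_nonunits_iff]

instance centerIdeal_isPrime : (centerIdeal v hB).IsPrime :=
  Ideal.comap_isPrime _ _

theorem inv_mem_of_isUnit {a : v.toValuationSubring} (ha : IsUnit a) :
    ((a : F))⁻¹ ∈ v.toValuationSubring := by
  obtain ⟨u, rfl⟩ := ha
  have h0 := congrArg (Subtype.val) (u.mul_inv)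
  have h1 : ((u : v.toValuationSubring) : F) *
      (((u⁻¹ : v.toValuationSubringˣ) : v.toValuationSubring) : F) = 1 := h0
  have h2 : ((u : v.toValuationSubring) : F)⁻¹ =
      (((u⁻¹ : v.toValuationSubringˣ) : v.toValuationSubring) : F) :=
    inv_eq_of_mul_eq_one_right h1
  rw [h2]
  exact (((u⁻¹ : v.toValuationSubringˣ) : v.toValuationSubring)).2

theorem centerIdeal_ne_bot : centerIdeal v hB ≠ ⊥ := by
  intro h
  apply v.ne_top'
  refine SetLike.ext fun x => ⟨fun _ => ValuationSubring.mem_top x, fun _ => ?_⟩
  obtain ⟨a, b, hb, rfl⟩ := IsFractionRing.div_surjective (A := B) x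
  have hb0 : b ≠ 0 := nonZeroDivisors.ne_zero hb
  have hbu : IsUnit (toValRing v hB b) := by
    by_contra hnu
    have : b ∈ centerIdeal v hB := (mem_centerIdeal_iff v hB b).mpr hnu
    rw [h] at this
    exact hb0 this
  rw [div_eq_mul_inv]
  exact mul_mem (hB a) (inv_mem_of_isUnit v hbu)

/-- The center of `v` as a height one prime of `B`. -/
def center : HeightOneSpectrum B :=
  ⟨centerIdeal v hB, centerIdeal_isPrime v hB, centerIdeal_ne_bot v hB⟩

@[simp]
theorem center_asIdeal : (center v hB).asIdeal = centerIdeal v hB := rfl

theorem valuationSubring_center_le :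
    ((center v hB).valuation F).valuationSubring ≤ v.toValuationSubring := by
  intro x hx
  rw [Valuation.mem_valuationSubring_iff] at hx
  obtain ⟨n, d, hnd⟩ := (center v hB).exists_primeCompl_mul_eq_of_integer x hx
  have hd : IsUnit (toValRing v hB d) := by
    by_contra hnu
    exact d.2 ((mem_centerIdeal_iff v hB d).mpr hnu)
  have hd0 : algebraMap B F d ≠ 0 := by
    intro h0
    have : toValRing v hB d = 0 := Subtype.ext h0
    rw [this] at hd
    exact not_isUnit_zero hd
  have hx' : x = algebraMap B F n * (algebraMap B F d)⁻¹ := by
    rw [← hnd, mul_assoc, mul_inv_cancel₀ hd0, mul_one]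
  rw [hx']
  exact mul_mem (hB n) (inv_mem_of_isUnit v hd)

theorem valuationSubring_center_eq :
    ((center v hB).valuation F).valuationSubring = v.toValuationSubring :=
  ValuationSubring.eq_of_le_of_ne_top _ (valuationSubring_center_le v hB) v.ne_top'

theorem eq_ofHeightOneSpectrum_center [Algebra K B] [IsScalarTower K B F] :
    v = Place.ofHeightOneSpectrum (K := K) (center v hB) :=
  Place.ext (valuationSubring_center_eq v hB).symm

end center

section essFinite

variable {K F : Type*} [Field K] [Field F] [Algebra K F]
variable {B : Type*} [CommRing B] [IsDedekindDomain B] [Algebra B F] [IsFractionRing B F]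
  [Algebra K B] [IsScalarTower K B F]
variable (v : Place K F) (hB : ∀ b : B, algebraMap B F b ∈ v.toValuationSubring)

theorem isLocalization_centerIdeal :
    @IsLocalization.AtPrime B _ v.toValuationSubring _ (toValRing v hB).toAlgebra
      (centerIdeal v hB) _ := by
  letI : Algebra B v.toValuationSubring := (toValRing v hB).toAlgebra
  show IsLocalization (centerIdeal v hB).primeCompl v.toValuationSubring
  rw [isLocalization_iff]
  refine ⟨?_, ?_, ?_⟩
  · intro y
    by_contra hnu
    exact y.2 ((mem_centerIdeal_iff v hB y).mpr hnu)
  · intro z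
    have hz : (center v hB).valuation F (z : F) ≤ 1 := by
      rw [← Valuation.mem_valuationSubring_iff, valuationSubring_center_eq v hB]
      exact z.2
    obtain ⟨n, d, hnd⟩ := (center v hB).exists_primeCompl_mul_eq_of_integer (z : F) hz
    exact ⟨(n, d), Subtype.ext hnd⟩
  · intro x y hxy
    exact ⟨1, by rw [toValRing_injective v hB hxy]⟩

theorem isScalarTower_toValRing :
    @IsScalarTower K B v.toValuationSubring _ (toValRing v hB).toAlgebra.toSMul _ := by
  letI : Algebra B v.toValuationSubring := (toValRing v hB).toAlgebra
  refine IsScalarTower.of_algebraMap_eq fun a => Subtype.ext ?_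
  show algebraMap K F a = algebraMap B F (algebraMap K B a)
  rw [← IsScalarTower.algebraMap_apply]

include hB in
theorem essFiniteType_valuationSubring [Algebra.FiniteType K B] :
    Algebra.EssFiniteType K v.toValuationSubring := by
  letI : Algebra B v.toValuationSubring := (toValRing v hB).toAlgebra
  haveI : IsScalarTower K B v.toValuationSubring := isScalarTower_toValRing v hB
  haveI : IsLocalization (centerIdeal v hB).primeCompl v.toValuationSubring :=
    isLocalization_centerIdeal v hB
  haveI : Algebra.EssFiniteType B v.toValuationSubring :=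
    Algebra.EssFiniteType.of_isLocalization v.toValuationSubring (centerIdeal v hB).primeCompl
  exact Algebra.EssFiniteType.comp K B v.toValuationSubring

include hB in
theorem finite_kaehler_valuationSubring [Algebra.FiniteType K B] :
    Module.Finite v.toValuationSubring Ω[v.toValuationSubring⁄K] := by
  haveI := essFiniteType_valuationSubring v hB
  infer_instance

include hB in
theorem residue_surjective_of_finiteType [IsAlgClosed K] [Algebra.FiniteType K B] :
    Function.Surjective (algebraMap K v.ResidueField) := by
  haveI hmax : (centerIdeal v hB).IsMaximal := (center v hB).isMaximal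
  letI : Field (B ⧸ centerIdeal v hB) := Ideal.Quotient.field _
  haveI : Module.Finite K (B ⧸ centerIdeal v hB) :=
    finite_of_finite_type_of_isJacobsonRing K _
  have hbij : Function.Bijective (algebraMap K (B ⧸ centerIdeal v hB)) :=
    IsAlgClosed.algebraMap_bijective_of_isIntegral
  intro r
  obtain ⟨z, rfl⟩ := IsLocalRing.residue_surjective r
  have hz : (center v hB).valuation F (z : F) ≤ 1 := by
    rw [← Valuation.mem_valuationSubring_iff, valuationSubring_center_eq v hB]
    exact z.2
  obtain ⟨n, d, hnd⟩ := (center v hB).exists_primeCompl_mul_eq_of_integer (z : F) hz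
  obtain ⟨d', hd'⟩ : ∃ d' : B, (d : B) * d' - 1 ∈ centerIdeal v hB := by
    have hd0 : Ideal.Quotient.mk (centerIdeal v hB) (d : B) ≠ 0 := by
      rw [Ne, Ideal.Quotient.eq_zero_iff_mem]; exact d.2
    obtain ⟨e, he⟩ := Ideal.Quotient.mk_surjective
      (Ideal.Quotient.mk (centerIdeal v hB) (d : B))⁻¹
    refine ⟨e, ?_⟩
    rw [← Ideal.Quotient.eq_zero_iff_mem, map_sub, map_mul, he, mul_inv_cancel₀ hd0, map_one,
      sub_self]
  obtain ⟨a, ha⟩ := hbij.2 (Ideal.Quotient.mk _ (n * d'))
  refine ⟨a, ?_⟩
  have h1 : algebraMap K v.ResidueField a =
      IsLocalRing.residue v.toValuationSubring (algebraMap K v.toValuationSubring a) := rfl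
  rw [h1]
  have hmem1 : toValRing v hB (n * d' - algebraMap K B a) ∈
      IsLocalRing.maximalIdeal v.toValuationSubring := by
    have : n * d' - algebraMap K B a ∈ centerIdeal v hB := by
      rw [← Ideal.Quotient.eq_zero_iff_mem, map_sub, sub_eq_zero]
      exact ha.symm
    exact this
  have hmem2 : z * toValRing v hB ((d : B) * d' - 1) ∈
      IsLocalRing.maximalIdeal v.toValuationSubring :=
    Ideal.mul_mem_left _ _ hd'
  have hsum : algebraMap K v.toValuationSubring a - z =
      -(toValRing v hB (n * d' - algebraMap K B a)) + z * toValRing v hB ((d : B) * d' - 1) := by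
    apply Subtype.ext
    have e1 : ((algebraMap K v.toValuationSubring a : v.toValuationSubring) : F) =
        algebraMap B F (algebraMap K B a) := by
      rw [← IsScalarTower.algebraMap_apply]; rfl
    have e2 : (((toValRing v hB (n * d' - algebraMap K B a) : v.toValuationSubring)) : F) =
        algebraMap B F n * algebraMap B F d' - algebraMap B F (algebraMap K B a) := by
      rw [coe_toValRing, map_sub, map_mul]
    have e3 : (((toValRing v hB ((d : B) * d' - 1) : v.toValuationSubring)) : F) =
        algebraMap B F d * algebraMap B F d' - 1 := by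
      rw [coe_toValRing, map_sub, map_mul, map_one]
    show ((algebraMap K v.toValuationSubring a : v.toValuationSubring) : F) - (z : F) =
      -(((toValRing v hB (n * d' - algebraMap K B a) : v.toValuationSubring)) : F) +
        (z : F) * (((toValRing v hB ((d : B) * d' - 1) : v.toValuationSubring)) : F)
    rw [e1, e2, e3, ← hnd]
    ring
  have hfin : algebraMap K v.toValuationSubring a - z ∈
      IsLocalRing.maximalIdeal v.toValuationSubring := by
    rw [hsum]
    exact Ideal.add_mem _ (neg_mem hmem1) hmem2
  rw [← sub_eq_zero, ← map_sub, IsLocalRing.residue_eq_zero_iff]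
  exact hfin

include hB in
/-- Combined local statement for a place containing a finite-type Dedekind model `B`. -/
theorem ordDifferential_smul_D_of_le [IsAlgClosed K] [CharZero K] [Algebra.FiniteType K B]
    {t : F} (ht : v.ord t ≠ 0) (hDt : D K F t ≠ 0) {f : F} (hf : f ≠ 0) :
    v.ordDifferential (f • D K F t) = v.ord f + v.ord t - 1 := by
  haveI := finite_kaehler_valuationSubring v hB
  exact ordDifferential_smul_D v (residue_surjective_of_finiteType v hB) ht hDt hf

end essFinite

end Fermat.Agent.S24.A564.LD
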