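import Fermat.Agent.S24.Defs
import Fermat.Agent.S24.A564.KaehlerRankOne
import Fermat.Agent.S24.A564.SumOrd
import Fermat.Agent.S24.A564.PlacesDedekind

/-!
# S24 PART A: assembly of the Riemann–Hurwitz count (helper564)

Pieces used (copied under the namespace `Fermat.Agent.S24.A564`):
* `KR` : Kähler differentials of a function field (helper3027),
* `SO` : zeros of a transcendental element sum up to the degree (helper4344),
* `LD` : order of `f dt` at a place (helper1884).
-/

set_option autoImplicit false

namespace Fermat.Agent.S24.A564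

open AlgebraicCurve KaehlerDifferential IntermediateField
open scoped IntermediateField.algebraAdjoinAdjoin

variable {K F : Type*} [Field K] [Field F] [Algebra K F]

theorem essFiniteType_of_finite (x : F) [FiniteDimensional K⟮x⟯ F] :
    Algebra.EssFiniteType K F := by
  have h1 : Algebra.EssFiniteType K K⟮x⟯ :=
    IntermediateField.essFiniteType_iff.mpr
      (IntermediateField.fg_adjoin_of_finite (Set.finite_singleton x))
  have h2 : Algebra.EssFiniteType K⟮x⟯ F := inferInstance
  exact Algebra.EssFiniteType.comp K K⟮x⟯ F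

/-- `F` is finite over `K(t)` for every transcendental `t`. -/
theorem finiteDimensional_adjoin_of_transcendental [CharZero K] (x t : F)
    (hx : Transcendental K x) (ht : Transcendental K t) [FiniteDimensional K⟮x⟯ F] :
    FiniteDimensional K⟮t⟯ F := by
  haveI := KR.isAlgebraic_adjoin_of_transcendental x t hx ht
  haveI : Algebra.EssFiniteType K F := essFiniteType_of_finite x
  haveI : Algebra.EssFiniteType K⟮t⟯ F := Algebra.EssFiniteType.of_comp K K⟮t⟯ F
  exact Algebra.finite_of_essFiniteType_of_isAlgebraic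

theorem adjoin_simple_sub_const (x : F) (c : K) : K⟮x - algebraMap K F c⟯ = K⟮x⟯ := by
  apply le_antisymm
  · exact adjoin_simple_le_iff.mpr (sub_mem (mem_adjoin_simple_self K x) (IntermediateField.algebraMap_mem _ c))
  · refine adjoin_simple_le_iff.mpr ?_
    have := add_mem (mem_adjoin_simple_self K (x - algebraMap K F c))
      (IntermediateField.algebraMap_mem K⟮x - algebraMap K F c⟯ c)
    simpa using this

theorem adjoin_simple_inv (x : F) : K⟮x⁻¹⟯ = K⟮x⟯ := by
  apply le_antisymm
  · exact adjoin_simple_le_iff.mpr (inv_mem (mem_adjoin_simple_self K x))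
  · refine adjoin_simple_le_iff.mpr ?_
    have := inv_mem (mem_adjoin_simple_self K x⁻¹)
    simpa using this

theorem transcendental_sub_const {x : F} (hx : Transcendental K x) (c : K) :
    Transcendental K (x - algebraMap K F c) := by
  intro h
  apply hx
  have := h.add (isAlgebraic_algebraMap (R := K) (A := F) c)
  simpa using this

theorem transcendental_inv {x : F} (hx : Transcendental K x) : Transcendental K x⁻¹ := by
  intro h
  apply hx
  simpa using h.inv

/-- Local facts at a place containing a transcendental `s` with `F/K(s)` finite. -/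
theorem local_facts_of_mem [IsAlgClosed K] [CharZero K] (v : Place K F) (s : F)
    (hs : Transcendental K s) [FiniteDimensional K⟮s⟯ F] (hsv : s ∈ v.toValuationSubring) :
    Module.Finite v.toValuationSubring Ω[v.toValuationSubring⁄K] ∧
      Function.Surjective (algebraMap K v.ResidueField) := by
  classical
  let R := Algebra.adjoin K {s}
  let B := integralClosure R F
  haveI : IsPrincipalIdealRing R := SO.adjoin_isPrincipalIdealRing s
  haveI : IsDedekindDomain B := IsIntegralClosure.isDedekindDomain R K⟮s⟯ F B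
  haveI : IsFractionRing B F := IsIntegralClosure.isFractionRing_of_finite_extension R K⟮s⟯ F B
  haveI : Module.Finite R B := IsIntegralClosure.finite R K⟮s⟯ F B
  haveI : Algebra.FiniteType K R := by
    have h : Algebra.adjoin K {s} = (Polynomial.aeval s : Polynomial K →ₐ[K] F).range :=
      Algebra.adjoin_singleton_eq_range_aeval K s
    show Algebra.FiniteType K (Algebra.adjoin K {s})
    rw [h]
    exact Algebra.FiniteType.of_surjective (Polynomial.aeval s : Polynomial K →ₐ[K] F).rangeRestrict
      (AlgHom.rangeRestrict_surjective _)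
  haveI : Algebra.FiniteType K B := Algebra.FiniteType.trans (S := R) inferInstance inferInstance
  have hR : R ≤ SO.Place_subalgebra v := SO.Place_adjoin_le v hsv
  have hB : ∀ b : B, algebraMap B F b ∈ v.toValuationSubring := fun b =>
    SO.Place_mem_of_isIntegral v hR b.2
  exact ⟨LD.finite_kaehler_valuationSubring v hB, LD.residue_surjective_of_finiteType v hB⟩

/-- Local facts at an arbitrary place. -/
theorem local_facts [IsAlgClosed K] [CharZero K] (x : F) (hx : Transcendental K x)
    [FiniteDimensional K⟮x⟯ F] (v : Place K F) :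
    Module.Finite v.toValuationSubring Ω[v.toValuationSubring⁄K] ∧
      Function.Surjective (algebraMap K v.ResidueField) := by
  rcases v.toValuationSubring.mem_or_inv_mem x with h | h
  · exact local_facts_of_mem v x hx h
  · have hx' : Transcendental K x⁻¹ := transcendental_inv hx
    haveI := finiteDimensional_adjoin_of_transcendental x x⁻¹ hx hx'
    exact local_facts_of_mem v x⁻¹ hx' h

/-- Every place has degree one. -/
theorem deg_eq_one [IsAlgClosed K] [CharZero K] (x : F) (hx : Transcendental K x)
    [FiniteDimensional K⟮x⟯ F] (v : Place K F) : v.deg = 1 := by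
  obtain ⟨_, hres⟩ := local_facts x hx v
  unfold Place.deg
  rw [finrank_eq_one_iff_of_nonzero' (1 : v.ResidueField) one_ne_zero]
  intro w
  obtain ⟨c, hc⟩ := hres w
  exact ⟨c, by rw [Algebra.smul_def, mul_one, hc]⟩

theorem ord_neg (v : Place K F) (y : F) : v.ord (-y) = v.ord y := by
  unfold Place.ord
  rw [Valuation.map_neg]

theorem ord_nonneg_of_sub_const_pos (v : Place K F) (x : F) (c : K)
    (h : 0 < v.ord (x - algebraMap K F c)) : 0 ≤ v.ord x := by
  rcases eq_or_ne x 0 with rfl | hx0
  · simp
  have h1 := SO.Place_ord_add_ge v (f := x - algebraMap K F c) (g := algebraMap K F c)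
    (by simpa using hx0)
  rw [sub_add_cancel, LD.ord_algebraMap] at h1
  have h2 : min (v.ord (x - algebraMap K F c)) 0 = 0 := min_eq_right h.le
  rw [h2] at h1
  exact h1

theorem const_unique (v : Place K F) (x : F) {c c' : K}
    (h : 0 < v.ord (x - algebraMap K F c)) (h' : 0 < v.ord (x - algebraMap K F c')) :
    c = c' := by
  by_contra hne
  have hcc : algebraMap K F (c - c') ≠ 0 := by
    rw [Ne, map_eq_zero, sub_eq_zero]
    exact hne
  have hsum : (x - algebraMap K F c') + -(x - algebraMap K F c) = algebraMap K F (c - c') := by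
    rw [map_sub]; ring
  have h1 := SO.Place_ord_add_ge v (f := x - algebraMap K F c') (g := -(x - algebraMap K F c))
    (by rw [hsum]; exact hcc)
  rw [hsum, LD.ord_algebraMap, ord_neg] at h1
  exact absurd (lt_of_lt_of_le (lt_min h' h) h1) (lt_irrefl 0)

/-- A place at which `x` is integral is a zero of `x - c` for some constant `c`. -/
theorem exists_const_ord_pos [IsAlgClosed K] [CharZero K] (x : F) (hx : Transcendental K x)
    [FiniteDimensional K⟮x⟯ F] (v : Place K F) (hv : 0 ≤ v.ord x) :
    ∃ c : K, 0 < v.ord (x - algebraMap K F c) := by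
  obtain ⟨_, hres⟩ := local_facts x hx v
  have hxv : x ∈ v.toValuationSubring := SO.Place_mem_of_ord_nonneg v hv
  obtain ⟨c, hc⟩ := hres (IsLocalRing.residue v.toValuationSubring ⟨x, hxv⟩)
  refine ⟨c, ?_⟩
  set d : v.toValuationSubring := ⟨x, hxv⟩ - algebraMap K v.toValuationSubring c with hd
  have hdm : d ∈ IsLocalRing.maximalIdeal v.toValuationSubring := by
    rw [← IsLocalRing.residue_eq_zero_iff, hd, map_sub, sub_eq_zero]
    exact hc.symm
  have hdF : (d : F) = x - algebraMap K F c := rfl
  have hd0 : d ≠ 0 := by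
    intro h0
    have h1 : x - algebraMap K F c = 0 := by rw [← hdF, h0]; rfl
    exact transcendental_sub_const hx c (h1 ▸ isAlgebraic_zero)
  have := (LD.ord_pos_iff_mem_maximalIdeal v d hd0).mpr hdm
  rwa [hdF] at this

theorem zeros_sum_of_adjoin_eq [IsAlgClosed K] [CharZero K] (s : F) (hs : Transcendental K s)
    (L : IntermediateField K F) (h : K⟮s⟯ = L) [FiniteDimensional L F] :
    ∃ S : Finset (Place K F), (∀ v, v ∈ S ↔ 0 < v.ord s) ∧
      ∑ v ∈ S, v.ord s = (Module.finrank L F : ℤ) := by
  subst h
  exact SO.exists_finset_zeros_sum_ord s hs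

/-- A principal divisor has degree zero (finite-support form). -/
theorem exists_finset_sum_ord_eq_zero [IsAlgClosed K] [CharZero K] (x : F)
    (hx : Transcendental K x) [FiniteDimensional K⟮x⟯ F] (f : F) :
    ∃ T : Finset (Place K F), (∀ v, v ∉ T → v.ord f = 0) ∧ ∑ v ∈ T, v.ord f = 0 := by
  classical
  by_cases hf : IsAlgebraic K f
  · exact ⟨∅, fun v _ => KR.ord_eq_zero_of_isAlgebraic v hf, by simp⟩
  · have hf' : Transcendental K f := hf
    haveI := finiteDimensional_adjoin_of_transcendental x f hx hf'
    obtain ⟨Z, hZ, hZs⟩ := SO.exists_finset_zeros_sum_ord f hf'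
    obtain ⟨P, hP, hPs⟩ :=
      zeros_sum_of_adjoin_eq f⁻¹ (transcendental_inv hf') K⟮f⟯ (adjoin_simple_inv f)
    refine ⟨Z ∪ P, ?_, ?_⟩
    · intro v hv
      rw [Finset.mem_union, not_or, hZ, hP, v.ord_inv] at hv
      omega
    · have hdisj : Disjoint Z P := by
        rw [Finset.disjoint_left]
        intro v hvZ hvP
        rw [hZ] at hvZ
        rw [hP, v.ord_inv] at hvP
        omega
      rw [Finset.sum_union hdisj, hZs]
      have h1 : ∑ v ∈ P, v.ord f = - ∑ v ∈ P, v.ord f⁻¹ := by
        rw [← Finset.sum_neg_distrib]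
        exact Finset.sum_congr rfl fun v _ => by rw [v.ord_inv, neg_neg]
      rw [h1, hPs]
      ring

/-- PART A (Riemann–Hurwitz in counting form). -/
theorem degree_eq_of_ramification_aux [IsAlgClosed K] [CharZero K]
    (x : F) (hx : Transcendental K x) [FiniteDimensional K⟮x⟯ F]
    (S : Finset K)
    (hunr : ∀ c : K, c ∉ S → ∀ v : Place K F,
      0 < v.ord (x - algebraMap K F c) → v.ord (x - algebraMap K F c) = 1)
    (ω : Ω[F⁄K]) (hω : ω ≠ 0) (D : Divisor K F) (hD : ∀ v, D v = v.ordDifferential ω) :
    Divisor.degree D = -2 * (Module.finrank K⟮x⟯ F : ℤ)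
      + ∑ c ∈ S, ((Module.finrank K⟮x⟯ F : ℤ) - (Nat.card (placesOver x c) : ℤ))
      + ((Module.finrank K⟮x⟯ F : ℤ) - (Nat.card (placesOverInfty (K := K) x) : ℤ)) := by
  classical
  -- ω = f dx
  obtain ⟨f, hf⟩ := KR.exists_eq_smul_D (K := K) x ω
  have hf0 : f ≠ 0 := by
    rintro rfl
    exact hω (by rw [hf, zero_smul])
  have hDx : KaehlerDifferential.D K F x ≠ 0 := KR.D_ne_zero x hx
  -- zeros of x - c
  choose Z hZmem hZsum using fun c : K =>
    zeros_sum_of_adjoin_eq (x - algebraMap K F c) (transcendental_sub_const hx c) K⟮x⟯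
      (adjoin_simple_sub_const x c)
  -- poles of x
  obtain ⟨P, hPmem, hPsum⟩ :=
    zeros_sum_of_adjoin_eq x⁻¹ (transcendental_inv hx) K⟮x⟯ (adjoin_simple_inv x)
  have hPmem' : ∀ v, v ∈ P ↔ v.ord x < 0 := fun v => by
    rw [hPmem, v.ord_inv]; omega
  -- zeros and poles of f
  obtain ⟨Tf, hTf, hTfsum⟩ := exists_finset_sum_ord_eq_zero x hx f
  -- local formulas
  have hloc_fin : ∀ (c : K) (v : Place K F), 0 < v.ord (x - algebraMap K F c) →
      D v = v.ord f + (v.ord (x - algebraMap K F c) - 1) := by
    intro c v hv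
    obtain ⟨h1, h2⟩ := local_facts x hx v
    haveI := h1
    rw [hD, hf, LD.ordDifferential_smul_D_of_sub v h2 c hv.ne' hDx hf0]
    ring
  have hloc_inf : ∀ v : Place K F, v.ord x < 0 → D v = v.ord f + (v.ord x - 1) := by
    intro v hv
    obtain ⟨h1, h2⟩ := local_facts x hx v
    haveI := h1
    rw [hD, hf, LD.ordDifferential_smul_D v h2 hv.ne hDx hf0]
    ring
  -- the branch finset
  set U : Finset (Place K F) := S.biUnion Z ∪ P with hU
  have hgen : ∀ v, v ∉ U → D v = v.ord f := by
    intro v hv
    rw [hU, Finset.mem_union, not_or, Finset.mem_biUnion] at hv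
    obtain ⟨hv1, hv2⟩ := hv
    have hx0 : 0 ≤ v.ord x := by
      rw [hPmem'] at hv2; omega
    obtain ⟨c, hc⟩ := exists_const_ord_pos x hx v hx0
    have hcS : c ∉ S := fun hcS => hv1 ⟨c, hcS, (hZmem c v).mpr hc⟩
    rw [hloc_fin c v hc, hunr c hcS v hc]
    ring
  set T : Finset (Place K F) := U ∪ Tf with hT
  have hsupp : D.support ⊆ T := by
    intro v hv
    rw [Finsupp.mem_support_iff] at hv
    by_contra hvT
    rw [hT, Finset.mem_union, not_or] at hvT
    exact hv (by rw [hgen v hvT.1, hTf v hvT.2])
  have hdeg : Divisor.degree D = ∑ v ∈ T, D v := by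
    have h1 : Divisor.degree D = ∑ v ∈ D.support, D v := by
      unfold Divisor.degree
      rw [Finsupp.liftAddHom_apply, Finsupp.sum]
      refine Finset.sum_congr rfl fun v _ => ?_
      simp [deg_eq_one x hx v]
    rw [h1]
    exact Finset.sum_subset hsupp fun v _ hv => by simpa using hv
  have hsplit : ∑ v ∈ T, D v = ∑ v ∈ T, v.ord f + ∑ v ∈ T, (D v - v.ord f) := by
    rw [← Finset.sum_add_distrib]
    exact Finset.sum_congr rfl fun v _ => by ring
  have hsumf : ∑ v ∈ T, v.ord f = 0 := by
    rw [← hTfsum]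
    symm
    exact Finset.sum_subset Finset.subset_union_right fun v _ hv => hTf v hv
  have hsumb : ∑ v ∈ T, (D v - v.ord f) = ∑ v ∈ U, (D v - v.ord f) := by
    symm
    exact Finset.sum_subset Finset.subset_union_left fun v _ hv => by rw [hgen v hv, sub_self]
  have hdisjUP : Disjoint (S.biUnion Z) P := by
    rw [Finset.disjoint_left]
    intro v hv1 hv2
    obtain ⟨c, -, hc⟩ := Finset.mem_biUnion.mp hv1
    have h1 := (hZmem c v).mp hc
    have h2 := (hPmem' v).mp hv2
    have h3 := ord_nonneg_of_sub_const_pos v x c h1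
    omega
  have hpair : (S : Set K).PairwiseDisjoint Z := by
    intro c _ c' _ hcc
    rw [Function.onFun, Finset.disjoint_left]
    intro v hv hv'
    exact hcc (const_unique v x ((hZmem c v).mp hv) ((hZmem c' v).mp hv'))
  have hZc : ∀ c, ∑ v ∈ Z c, (D v - v.ord f) = (Module.finrank K⟮x⟯ F : ℤ) - ((Z c).card : ℤ) := by
    intro c
    have h1 : ∑ v ∈ Z c, (D v - v.ord f) = ∑ v ∈ Z c, (v.ord (x - algebraMap K F c) - 1) :=
      Finset.sum_congr rfl fun v hv => by
        rw [hloc_fin c v ((hZmem c v).mp hv)]; ring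
    rw [h1, Finset.sum_sub_distrib, hZsum c]
    simp
  have hPs : ∑ v ∈ P, (D v - v.ord f) = -(Module.finrank K⟮x⟯ F : ℤ) - (P.card : ℤ) := by
    have h1 : ∑ v ∈ P, (D v - v.ord f) = ∑ v ∈ P, (-(v.ord x⁻¹) - 1) :=
      Finset.sum_congr rfl fun v hv => by
        rw [hloc_inf v ((hPmem' v).mp hv), v.ord_inv]; ring
    rw [h1, Finset.sum_sub_distrib, Finset.sum_neg_distrib, hPsum]
    simp
  have hcardZ : ∀ c, Nat.card (placesOver x c) = (Z c).card := by
    intro c
    have h1 : placesOver x c = ((Z c : Finset (Place K F)) : Set (Place K F)) := by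
      ext v
      simp [placesOver, hZmem c v]
    rw [h1]
    simp
  have hcardP : Nat.card (placesOverInfty (K := K) x) = P.card := by
    have h1 : placesOverInfty (K := K) x = ((P : Finset (Place K F)) : Set (Place K F)) := by
      ext v
      simp [placesOverInfty, hPmem' v]
    rw [h1]
    simp
  have hfinal : ∑ v ∈ U, (D v - v.ord f)
      = ∑ c ∈ S, ((Module.finrank K⟮x⟯ F : ℤ) - (Nat.card (placesOver x c) : ℤ))
        + (-(Module.finrank K⟮x⟯ F : ℤ) - (Nat.card (placesOverInfty (K := K) x) : ℤ)) := by
    rw [hU, Finset.sum_union hdisjUP, Finset.sum_biUnion hpair, hPs, hcardP]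
    congr 1
    exact Finset.sum_congr rfl fun c _ => by rw [hZc c, hcardZ c]
  rw [hdeg, hsplit, hsumf, hsumb, hfinal]
  ring

end Fermat.Agent.S24.A564
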