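import Mathlib
import Fermat.Prelude.Def_AlgebraicCurve_CanonicalDivisor
import Fermat.Prelude.Def_AlgebraicCurve_Repartitions

-- Copied by helper564 from helper4344 (origin/helper4344:Fermat/Agent/S24/PlaceBasic.lean); only the namespace and the import lines were changed
-- (namespace Fermat.Agent.S24.A564.*), so that the PART A assembly is self-contained.

set_option autoImplicit false

namespace Fermat.Agent.S24.A564.SO

open AlgebraicCurve IsDedekindDomain

variable {K F : Type*} [Field K] [Field F] [Algebra K F] (v : Place K F)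

theorem Place_mem_of_ord_nonneg {f : F} (h : 0 ≤ v.ord f) : f ∈ v.toValuationSubring := by
  rcases eq_or_ne f 0 with rfl | hf
  · exact zero_mem _
  obtain ⟨π, hπ⟩ := IsDiscreteValuationRing.exists_irreducible v.toValuationSubring
  obtain ⟨u, hu⟩ := v.exists_unit_mul_zpow hf hπ
  rw [hu]
  obtain ⟨n, hn⟩ := Int.eq_ofNat_of_zero_le h
  rw [hn, zpow_natCast]
  exact mul_mem (u : v.toValuationSubring).2 (pow_mem π.2 n)

theorem Place_ord_nonneg_of_mem {f : F} (h : f ∈ v.toValuationSubring) : 0 ≤ v.ord f := by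
  rcases eq_or_ne f 0 with rfl | hf
  · simp
  have := (v.adicValuation_le_one_iff (f := f)).mp (v.adicValuation_le_one_of_mem h)
  tauto

theorem Place_mem_iff {f : F} (hf : f ≠ 0) : f ∈ v.toValuationSubring ↔ 0 ≤ v.ord f :=
  ⟨Place_ord_nonneg_of_mem v, Place_mem_of_ord_nonneg v⟩

theorem Place_ord_add_ge {f g : F} (hfg : f + g ≠ 0) :
    min (v.ord f) (v.ord g) ≤ v.ord (f + g) := by
  rcases eq_or_ne f 0 with rfl | hf
  · simp
  rcases eq_or_ne g 0 with rfl | hg
  · simp
  have h := Valuation.map_add v.adicValuation f g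
  rw [v.adicValuation_eq_exp_neg_ord hfg, v.adicValuation_eq_exp_neg_ord hf,
    v.adicValuation_eq_exp_neg_ord hg] at h
  rcases le_max_iff.mp h with h | h
  · rw [WithZero.exp_le_exp] at h
    exact (min_le_left _ _).trans (by omega)
  · rw [WithZero.exp_le_exp] at h
    exact (min_le_right _ _).trans (by omega)

theorem Place_ord_algebraMap (c : K) : v.ord (algebraMap K F c) = 0 := by
  rcases eq_or_ne c 0 with rfl | hc
  · simp
  have h1 := Place_ord_nonneg_of_mem v (v.algebraMap_mem' c)
  have h2 := Place_ord_nonneg_of_mem v (v.algebraMap_mem' c⁻¹)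
  rw [map_inv₀, v.ord_inv] at h2
  omega

end Fermat.Agent.S24.A564.SO
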