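import Mathlib
import Fermat.Prelude.Def_AlgebraicCurve_CanonicalDivisor
import Fermat.Prelude.Def_AlgebraicCurve_Repartitions

-- Copied by helper564 from helper1884 (origin/helper1884:Fermat/Agent/S24/LocalDiff.lean); only the namespace and the import lines were changed
-- (namespace Fermat.Agent.S24.A564.*), so that the PART A assembly is self-contained.

set_option autoImplicit false
open AlgebraicCurve KaehlerDifferential IsDedekindDomain

namespace Fermat.Agent.S24.A564.LD

variable {K F : Type*} [Field K] [Field F] [Algebra K F]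

section ordBasics

variable (v : Place K F)

theorem adicValuation_le_one_iff (x : F) :
    v.adicValuation x ≤ 1 ↔ x ∈ v.toValuationSubring := by
  constructor
  · intro h
    by_contra hx
    have hxi : x⁻¹ ∈ v.toValuationSubring :=
      (v.toValuationSubring.mem_or_inv_mem x).resolve_left hx
    have hx0 : x ≠ 0 := fun h0 => hx (h0 ▸ zero_mem _)
    have hnu : ¬ IsUnit (⟨x⁻¹, hxi⟩ : v.toValuationSubring) := by
      intro hu
      obtain ⟨u, hu⟩ := hu
      apply hx
      have h1 : ((u : v.toValuationSubring) : F) * (((u⁻¹ : v.toValuationSubringˣ) :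
          v.toValuationSubring) : F) = 1 := by
        have h0 := congrArg (Subtype.val) (u.mul_inv)
        exact h0
      rw [hu] at h1
      have h2 : (((u⁻¹ : v.toValuationSubringˣ) : v.toValuationSubring) : F) = x := by
        have h3 : x⁻¹ * (((u⁻¹ : v.toValuationSubringˣ) : v.toValuationSubring) : F) = 1 := h1
        field_simp at h3
        exact h3
      rw [← h2]
      exact (((u⁻¹ : v.toValuationSubringˣ) : v.toValuationSubring)).2
    have hlt : v.adicValuation x⁻¹ < 1 := by
      have h1 := v.adicValuation_coe ⟨x⁻¹, hxi⟩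
      have h2 : v.adicValuation x⁻¹ = v.heightOneSpectrum.intValuation ⟨x⁻¹, hxi⟩ := h1
      rw [h2, HeightOneSpectrum.intValuation_lt_one_iff_mem, Place.heightOneSpectrum_asIdeal,
        IsLocalRing.mem_maximalIdeal]
      exact hnu
    rw [map_inv₀] at hlt
    have hne : v.adicValuation x ≠ 0 := v.adicValuation_ne_zero hx0
    have : 1 < v.adicValuation x := by
      rwa [inv_lt_one₀ (zero_lt_iff.mpr hne)] at hlt
    exact absurd h (not_le.mpr this)
  · intro hx
    have h1 := v.adicValuation_coe ⟨x, hx⟩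
    have h2 : v.adicValuation x = v.heightOneSpectrum.intValuation ⟨x, hx⟩ := h1
    rw [h2]
    exact HeightOneSpectrum.intValuation_le_one _ _

theorem ord_nonneg_iff {x : F} (hx : x ≠ 0) :
    0 ≤ v.ord x ↔ x ∈ v.toValuationSubring := by
  rw [← adicValuation_le_one_iff]
  unfold Place.ord
  rw [neg_nonneg, WithZero.log_le_iff_le_exp (v.adicValuation_ne_zero hx), WithZero.exp_zero]

theorem adicValuation_eq_exp_neg_ord {x : F} (hx : x ≠ 0) :
    v.adicValuation x = WithZero.exp (-(v.ord x)) := by
  unfold Place.ord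
  rw [neg_neg, WithZero.exp_log (v.adicValuation_ne_zero hx)]

theorem ord_add_ge {x y : F} (hx : x ≠ 0) (hy : y ≠ 0) (hxy : x + y ≠ 0) :
    min (v.ord x) (v.ord y) ≤ v.ord (x + y) := by
  have h := v.adicValuation.map_add x y
  rw [adicValuation_eq_exp_neg_ord v hx, adicValuation_eq_exp_neg_ord v hy,
    adicValuation_eq_exp_neg_ord v hxy] at h
  rcases le_max_iff.mp h with h | h
  · rw [WithZero.exp_le_exp] at h
    exact (min_le_left _ _).trans (by omega)
  · rw [WithZero.exp_le_exp] at h
    exact (min_le_right _ _).trans (by omega)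

theorem ord_add_eq_of_lt {x y : F} (hx : x ≠ 0) (hy : y ≠ 0) (hlt : v.ord x < v.ord y) :
    v.ord (x + y) = v.ord x := by
  have hxy : x + y ≠ 0 := by
    intro h0
    have : y = -x := by linear_combination h0
    rw [this] at hlt
    unfold Place.ord at hlt
    rw [Valuation.map_neg] at hlt
    exact lt_irrefl _ hlt
  have h := Valuation.map_add_eq_of_lt_left v.adicValuation (x := x) (y := y) (by
    rw [adicValuation_eq_exp_neg_ord v hx, adicValuation_eq_exp_neg_ord v hy, WithZero.exp_lt_exp]
    omega)
  rw [adicValuation_eq_exp_neg_ord v hx, adicValuation_eq_exp_neg_ord v hxy, WithZero.exp_inj] at h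
  omega

theorem ord_pos_iff_mem_maximalIdeal (a : v.toValuationSubring) (ha : a ≠ 0) :
    0 < v.ord (a : F) ↔ a ∈ IsLocalRing.maximalIdeal v.toValuationSubring := by
  have ha' : (a : F) ≠ 0 := by
    simpa [ne_eq, ZeroMemClass.coe_eq_zero] using ha
  have h1 : v.adicValuation (a : F) < 1 ↔ a ∈ IsLocalRing.maximalIdeal v.toValuationSubring := by
    rw [v.adicValuation_coe, HeightOneSpectrum.intValuation_lt_one_iff_mem,
      Place.heightOneSpectrum_asIdeal]
  rw [← h1]
  unfold Place.ord
  rw [neg_pos, WithZero.log_lt_iff_lt_exp (v.adicValuation_ne_zero ha'), WithZero.exp_zero]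

theorem ne_zero_of_ord_ne_zero {x : F} (hx : v.ord x ≠ 0) : x ≠ 0 := by
  rintro rfl
  exact hx v.ord_zero

end ordBasics

section regularity

variable (v : Place K F)

/-- Every element of the valuation ring is a constant plus a multiple of the uniformizer. -/
theorem exists_const_add_mul (hres : Function.Surjective (algebraMap K v.ResidueField))
    {π : F} (hπ : v.ord π = 1) {u : F} (hu : u ∈ v.toValuationSubring) :
    ∃ a : K, ∃ w ∈ v.toValuationSubring, u = algebraMap K F a + π * w := by
  have hπ0 : π ≠ 0 := ne_zero_of_ord_ne_zero v (by rw [hπ]; exact one_ne_zero)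
  obtain ⟨a, ha⟩ := hres (IsLocalRing.residue v.toValuationSubring ⟨u, hu⟩)
  refine ⟨a, (u - algebraMap K F a) / π, ?_, by field_simp; ring⟩
  set d : v.toValuationSubring := ⟨u, hu⟩ - algebraMap K v.toValuationSubring a with hd
  have hdm : d ∈ IsLocalRing.maximalIdeal v.toValuationSubring := by
    rw [← IsLocalRing.residue_eq_zero_iff, hd, map_sub, sub_eq_zero]
    exact ha.symm
  have hdF : (d : F) = u - algebraMap K F a := rfl
  by_cases hd0 : d = 0
  · have : u - algebraMap K F a = 0 := by rw [← hdF, hd0]; rfl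
    rw [this, zero_div]
    exact zero_mem _
  · have hpos := (ord_pos_iff_mem_maximalIdeal v d hd0).mpr hdm
    have hne : (u - algebraMap K F a) / π ≠ 0 := by
      rw [← hdF]
      exact div_ne_zero (by simpa [ne_eq, ZeroMemClass.coe_eq_zero] using hd0) hπ0
    rw [← ord_nonneg_iff v hne, div_eq_mul_inv, v.ord_mul (by
      rw [← hdF]; simpa [ne_eq, ZeroMemClass.coe_eq_zero] using hd0) (inv_ne_zero hπ0),
      v.ord_inv, hπ, ← hdF]
    omega

theorem mem_of_ord_eq_one {π : F} (hπ : v.ord π = 1) : π ∈ v.toValuationSubring := by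
  have hπ0 : π ≠ 0 := ne_zero_of_ord_ne_zero v (by rw [hπ]; exact one_ne_zero)
  rw [← ord_nonneg_iff v hπ0, hπ]
  exact zero_le_one

theorem mem_maximalIdeal_of_ord_eq_one {π : F} (hπ : v.ord π = 1) :
    (⟨π, mem_of_ord_eq_one v hπ⟩ : v.toValuationSubring) ∈
      IsLocalRing.maximalIdeal v.toValuationSubring := by
  have hπ0 : π ≠ 0 := ne_zero_of_ord_ne_zero v (by rw [hπ]; exact one_ne_zero)
  rw [← ord_pos_iff_mem_maximalIdeal v _ (by
    intro h; exact hπ0 (congrArg Subtype.val h))]
  show 0 < v.ord π
  rw [hπ]; exact zero_lt_one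

/-- Regularity: the differential of an integral element is an integral multiple of `dπ`. -/
theorem exists_D_eq_smul_D_of_mem
    [Module.Finite v.toValuationSubring Ω[v.toValuationSubring⁄K]]
    (hres : Function.Surjective (algebraMap K v.ResidueField))
    {π : F} (hπ : v.ord π = 1) {u : F} (hu : u ∈ v.toValuationSubring) :
    ∃ h ∈ v.toValuationSubring, D K F u = h • D K F π := by
  classical
  set A := v.toValuationSubring with hA
  set πA : A := ⟨π, mem_of_ord_eq_one v hπ⟩ with hπA
  set N : Submodule A Ω[A⁄K] := Submodule.span A {D K A πA} with hN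
  have htop : (⊤ : Submodule A Ω[A⁄K]) ≤ N := by
    refine Submodule.le_of_le_smul_of_le_jacobson_bot (I := IsLocalRing.maximalIdeal A)
      Module.Finite.fg_top (IsLocalRing.maximalIdeal_le_jacobson ⊥) ?_
    rw [← KaehlerDifferential.span_range_derivation K A, Submodule.span_le]
    rintro _ ⟨u', rfl⟩
    obtain ⟨a, w, hw, huw⟩ := exists_const_add_mul v hres hπ u'.2
    have hu' : u' = algebraMap K A a + πA * ⟨w, hw⟩ := Subtype.ext huw
    rw [hu', map_add, Derivation.map_algebraMap, zero_add, Derivation.leibniz]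
    refine Submodule.add_mem _ ?_ ?_
    · refine Submodule.mem_sup_right ?_
      refine Submodule.smul_mem_smul (mem_maximalIdeal_of_ord_eq_one v hπ) ?_
      rw [KaehlerDifferential.span_range_derivation]; trivial
    · refine Submodule.mem_sup_left ?_
      exact Submodule.smul_mem _ _ (Submodule.subset_span rfl)
  have hmem : D K A ⟨u, hu⟩ ∈ N := htop Submodule.mem_top
  obtain ⟨h, hh⟩ := Submodule.mem_span_singleton.mp hmem
  refine ⟨(h : F), h.2, ?_⟩
  have key := congrArg (KaehlerDifferential.map K K A F) hh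
  rw [map_smul, KaehlerDifferential.map_D, KaehlerDifferential.map_D] at key
  exact key.symm

theorem ord_algebraMap (a : K) : v.ord (algebraMap K F a) = 0 := by
  rcases eq_or_ne a 0 with rfl | ha
  · simp
  have h0 : algebraMap K F a ≠ 0 := by simpa using ha
  have h1 : 0 ≤ v.ord (algebraMap K F a) := (ord_nonneg_iff v h0).mpr (v.algebraMap_mem' a)
  have h2 : 0 ≤ v.ord (algebraMap K F a)⁻¹ := by
    rw [← map_inv₀]
    exact (ord_nonneg_iff v (by simpa using ha)).mpr (v.algebraMap_mem' a⁻¹)
  rw [v.ord_inv] at h2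
  omega

theorem ord_intCast (n : ℤ) : v.ord (n : F) = 0 := by
  have h : (n : F) = algebraMap K F (n : K) := by simp
  rw [h]
  exact ord_algebraMap v _

omit v in
theorem intCast_ne_zero_of_charZero [CharZero K] {n : ℤ} (hn : n ≠ 0) : (n : F) ≠ 0 := by
  have h : (n : F) = algebraMap K F (n : K) := by simp
  rw [h]
  have hK : (n : K) ≠ 0 := by exact_mod_cast hn
  exact fun h0 => hK ((map_eq_zero (algebraMap K F)).mp h0)

/-- The local lemma: if `π` is a uniformizer at `v` and `t` has nonzero order `e` at `v`,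
then `dt = g dπ` with `ord_v g = e - 1` (characteristic zero, residue field `K`). -/
theorem exists_D_eq_smul_D [CharZero K]
    [Module.Finite v.toValuationSubring Ω[v.toValuationSubring⁄K]]
    (hres : Function.Surjective (algebraMap K v.ResidueField))
    {π t : F} (hπ : v.ord π = 1) (ht : v.ord t ≠ 0) :
    ∃ g : F, D K F t = g • D K F π ∧ g ≠ 0 ∧ v.ord g = v.ord t - 1 := by
  have hπ0 : π ≠ 0 := ne_zero_of_ord_ne_zero v (by rw [hπ]; exact one_ne_zero)
  have ht0 : t ≠ 0 := ne_zero_of_ord_ne_zero v ht
  set e : ℤ := v.ord t with he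
  set u : F := t * (π ^ e)⁻¹ with hu
  have hπe : π ^ e ≠ 0 := zpow_ne_zero e hπ0
  have hu0 : u ≠ 0 := mul_ne_zero ht0 (inv_ne_zero hπe)
  have hordu : v.ord u = 0 := by
    rw [hu, v.ord_mul ht0 (inv_ne_zero hπe), v.ord_inv, v.ord_zpow, hπ, ← he]
    ring
  have humem : u ∈ v.toValuationSubring := by
    rw [← ord_nonneg_iff v hu0, hordu]
  obtain ⟨h, hh, hDu⟩ := exists_D_eq_smul_D_of_mem v hres hπ humem
  have htu : t = u * π ^ e := by
    rw [hu, mul_assoc, inv_mul_cancel₀ hπe, mul_one]
  have hDt : D K F t = ((e : F) * u * π ^ (e - 1) + π ^ e * h) • D K F π := by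
    conv_lhs => rw [htu]
    rw [Derivation.leibniz, Derivation.leibniz_zpow, hDu, ← Int.cast_smul_eq_zsmul F e,
      smul_smul, smul_smul, smul_smul, ← add_smul]
    congr 1
    ring
  have heF : (e : F) ≠ 0 := intCast_ne_zero_of_charZero (K := K) ht
  have h1 : (e : F) * u * π ^ (e - 1) ≠ 0 :=
    mul_ne_zero (mul_ne_zero heF hu0) (zpow_ne_zero _ hπ0)
  have hord1 : v.ord ((e : F) * u * π ^ (e - 1)) = e - 1 := by
    rw [v.ord_mul (mul_ne_zero heF hu0) (zpow_ne_zero _ hπ0),
      v.ord_mul heF hu0, ord_intCast v e, hordu, v.ord_zpow, hπ]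
    ring
  refine ⟨_, hDt, ?_, ?_⟩
  · rcases eq_or_ne h 0 with rfl | hh0
    · simpa using h1
    · have h2 : π ^ e * h ≠ 0 := mul_ne_zero hπe hh0
      have hord2 : v.ord (π ^ e * h) = e + v.ord h := by
        rw [v.ord_mul hπe hh0, v.ord_zpow, hπ]; ring
      have hhn : 0 ≤ v.ord h := (ord_nonneg_iff v hh0).mpr hh
      intro h0
      have hlt : v.ord ((e : F) * u * π ^ (e - 1)) < v.ord (π ^ e * h) := by
        rw [hord1, hord2]; omega
      have h3 := ord_add_eq_of_lt v h1 h2 hlt
      rw [h0, v.ord_zero, hord1] at h3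
      have h4 : (e : F) * u * π ^ (e - 1) = -(π ^ e * h) := by linear_combination h0
      have h5 : v.ord ((e : F) * u * π ^ (e - 1)) = v.ord (π ^ e * h) := by
        rw [h4]
        unfold Place.ord
        rw [Valuation.map_neg]
      omega
  · rcases eq_or_ne h 0 with rfl | hh0
    · rw [mul_zero, add_zero, hord1]
    · have h2 : π ^ e * h ≠ 0 := mul_ne_zero hπe hh0
      have hord2 : v.ord (π ^ e * h) = e + v.ord h := by
        rw [v.ord_mul hπe hh0, v.ord_zpow, hπ]; ring
      have hhn : 0 ≤ v.ord h := (ord_nonneg_iff v hh0).mpr hh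
      have hlt : v.ord ((e : F) * u * π ^ (e - 1)) < v.ord (π ^ e * h) := by
        rw [hord1, hord2]; omega
      rw [ord_add_eq_of_lt v h1 h2 hlt, hord1]

end regularity

section frozenVocabulary

variable (v : Place K F)

theorem exists_dCoord : ∃ π : F, v.ord π = 1 ∧ v.dCoord = D K F π :=
  ⟨((IsDiscreteValuationRing.exists_irreducible v.toValuationSubring).choose : F),
   v.ord_coe_irreducible
    (IsDiscreteValuationRing.exists_irreducible v.toValuationSubring).choose_spec, rfl⟩

theorem differentialCoeff_eq_of_eq_smul (hd : v.dCoord ≠ 0) {ω : Ω[F⁄K]} {c : F}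
    (h : ω = c • v.dCoord) : v.differentialCoeff ω = c := by
  have hex : ∃ f : F, ω = f • v.dCoord := ⟨c, h⟩
  unfold Place.differentialCoeff
  rw [dif_pos hex]
  have h1 := hex.choose_spec
  have h2 : (hex.choose - c) • v.dCoord = 0 := by
    rw [sub_smul, ← h1, ← h, sub_self]
  rcases smul_eq_zero.mp h2 with h3 | h3
  · exact sub_eq_zero.mp h3
  · exact absurd h3 hd

/-- Order of a differential `f dt` at a place where `t` has nonzero order. -/
theorem ordDifferential_smul_D [CharZero K]
    [Module.Finite v.toValuationSubring Ω[v.toValuationSubring⁄K]]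
    (hres : Function.Surjective (algebraMap K v.ResidueField))
    {t : F} (ht : v.ord t ≠ 0) (hDt : D K F t ≠ 0) {f : F} (hf : f ≠ 0) :
    v.ordDifferential (f • D K F t) = v.ord f + v.ord t - 1 := by
  obtain ⟨π, hπ, hd⟩ := exists_dCoord v
  obtain ⟨g, hg, hg0, hgo⟩ := exists_D_eq_smul_D v hres hπ ht
  have hdne : v.dCoord ≠ 0 := by
    intro h0
    apply hDt
    rw [hg, ← hd, h0, smul_zero]
  have hω : f • D K F t = (f * g) • v.dCoord := by
    rw [hg, hd, smul_smul]
  unfold Place.ordDifferential
  rw [differentialCoeff_eq_of_eq_smul v hdne hω, v.ord_mul hf hg0, hgo]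
  ring

/-- Variant: `t - a` has nonzero order at `v` (for a constant `a`). -/
theorem ordDifferential_smul_D_of_sub [CharZero K]
    [Module.Finite v.toValuationSubring Ω[v.toValuationSubring⁄K]]
    (hres : Function.Surjective (algebraMap K v.ResidueField))
    {t : F} (a : K) (ht : v.ord (t - algebraMap K F a) ≠ 0) (hDt : D K F t ≠ 0)
    {f : F} (hf : f ≠ 0) :
    v.ordDifferential (f • D K F t) = v.ord f + v.ord (t - algebraMap K F a) - 1 := by
  have h : D K F (t - algebraMap K F a) = D K F t := by
    rw [map_sub, Derivation.map_algebraMap, sub_zero]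
  rw [← h]
  exact ordDifferential_smul_D v hres ht (by rw [h]; exact hDt) hf

end frozenVocabulary

end Fermat.Agent.S24.A564.LD
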